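import Fermat.Agent.A2.H432.KummerDisc
import Fermat.Agent.A2.H733.DiscrTower

/-!
# A2 / COUNT (A3): étale bases in towers of Kummer extensions — helper432

`EtaleBasis A F L` : the field extension `L / F` has an `F`-basis consisting of elements integral
over `A` whose discriminant `d ∈ F` is a unit of the integral closure of `A` in `F`
(`d` and `d⁻¹` integral over `A`).  If `A` is integrally closed with fraction field `F`
this says `d ∈ Aˣ` (`EtaleBasis.exists_isUnit`): "`L / F` is étale over `A`" = `EtaleAt`.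

* `EtaleBasis.trans`      : transitivity in towers `F ⊆ F₁ ⊆ L` (tower formula `H733.discr_smulTower`).
* `etaleBasis_of_kummer`  : `L = F(y)`, `y ^ m = u`, `u, m ∈ Aˣ`, where `F` is a finite extension of
  `K = Frac A`, `A` integrally closed (Kummer step over any finite level of the tower).
* `etaleBasis_of_kummer_two` : two Kummer steps `F ⊆ F(y₁) ⊆ F(y₁, y₂)`.
-/

set_option autoImplicit false

namespace Fermat.Agent.A2.H432

open Module

/-- `L / F` has an `A`-integral basis with unit discriminant. -/
def EtaleBasis (A F L : Type*) [CommRing A] [Field F] [Field L] [Algebra A F] [Algebra F L]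
    [Algebra A L] : Prop :=
  ∃ (n : ℕ) (b : Basis (Fin n) F L), (∀ i, IsIntegral A (b i)) ∧
    ∃ d' : F, IsIntegral A (Algebra.discr F b) ∧ IsIntegral A d' ∧ Algebra.discr F b * d' = 1

section trans

variable {A F F₁ L : Type*} [CommRing A] [Field F] [Field F₁] [Field L]
  [Algebra A F] [Algebra A F₁] [Algebra A L] [Algebra F F₁] [Algebra F₁ L] [Algebra F L]
  [IsScalarTower A F F₁] [IsScalarTower A F₁ L] [IsScalarTower F F₁ L]

/-- **Transitivity** of étale bases. -/
theorem EtaleBasis.trans (h₁ : EtaleBasis A F F₁) (h₂ : EtaleBasis A F₁ L) :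
    EtaleBasis A F L := by
  classical
  obtain ⟨n, b, hb, d₁', hd₁, hd₁', h1⟩ := h₁
  obtain ⟨k, c, hc, d₂', hd₂, hd₂', h2⟩ := h₂
  have hfin : FiniteDimensional F F₁ := Module.Finite.of_basis b
  let B : Basis (Fin n × Fin k) F L := b.smulTower c
  let e : Fin n × Fin k ≃ Fin (n * k) := finProdFinEquiv
  refine ⟨n * k, B.reindex e, ?_, d₁' ^ k * Algebra.norm F d₂', ?_, ?_, ?_⟩
  · intro i
    rw [Basis.reindex_apply, Basis.smulTower_apply, Algebra.smul_def]
    exact (hb _).algebraMap.mul (hc _)
  all_goals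
    have hdisc : Algebra.discr F (B.reindex e) =
        Algebra.discr F b ^ k * Algebra.norm F (Algebra.discr F₁ c) := by
      have h := Fermat.Agent.A2.H733.discr_smulTower b c
      rw [Fintype.card_fin] at h
      rw [← h, Basis.coe_reindex]
      exact Algebra.discr_reindex F B e
  · rw [hdisc]
    exact (hd₁.pow k).mul (Algebra.isIntegral_norm F hd₂)
  · exact (hd₁'.pow k).mul (Algebra.isIntegral_norm F hd₂')
  · rw [hdisc]
    calc Algebra.discr F b ^ k * Algebra.norm F (Algebra.discr F₁ c) *
          (d₁' ^ k * Algebra.norm F d₂')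
        = (Algebra.discr F b * d₁') ^ k *
            (Algebra.norm F (Algebra.discr F₁ c) * Algebra.norm F d₂') := by ring
      _ = 1 := by rw [h1, one_pow, one_mul, ← map_mul, h2, map_one]

end trans

section unit

variable {A F L : Type*} [CommRing A] [IsIntegrallyClosed A] [Field F] [Field L]
  [Algebra A F] [IsFractionRing A F] [Algebra F L] [Algebra A L]

/-- Over an integrally closed `A` with fraction field `F`, the discriminant of an étale basis is
a unit of `A`. -/
theorem EtaleBasis.exists_isUnit (h : EtaleBasis A F L) :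
    ∃ (n : ℕ) (b : Basis (Fin n) F L), (∀ i, IsIntegral A (b i)) ∧
      ∃ a : A, IsUnit a ∧ Algebra.discr F b = algebraMap A F a := by
  obtain ⟨n, b, hb, d', hd, hd', h1⟩ := h
  obtain ⟨a, ha⟩ := IsIntegrallyClosed.isIntegral_iff.1 hd
  obtain ⟨a', ha'⟩ := IsIntegrallyClosed.isIntegral_iff.1 hd'
  refine ⟨n, b, hb, a, IsUnit.of_mul_eq_one a' ?_, ha.symm⟩
  apply IsFractionRing.injective A F
  rw [map_mul, ha, ha', h1, map_one]

end unit

section kummer

/-- **Kummer step.**  `A` integrally closed, `K = Frac A`, `F / K` finite separable,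
`L = F(y)` finite separable with `y ^ m = u`, `u` and `m` units of `A`.  Then `L / F` has an
étale basis over `A` (the power basis of `y`). -/
theorem etaleBasis_of_kummer {A : Type*} (K : Type*) {F L : Type*}
    [CommRing A] [IsDomain A] [IsIntegrallyClosed A]
    [Field K] [Algebra A K] [IsFractionRing A K]
    [Field F] [Algebra K F] [Algebra A F] [IsScalarTower A K F]
    [FiniteDimensional K F] [Algebra.IsSeparable K F]
    [Field L] [Algebra F L] [Algebra A L] [IsScalarTower A F L]
    [FiniteDimensional F L] [Algebra.IsSeparable F L]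
    (pb : PowerBasis F L) {m : ℕ} {u v : A} (huv : u * v = 1)
    {n : A} (hmn : (m : A) * n = 1) (hy : pb.gen ^ m = algebraMap A L u) :
    EtaleBasis A F L := by
  have hm : m ≠ 0 := by
    rintro rfl
    simp at hmn
  -- the integral closure of `A` in `F`
  let A₁ := integralClosure A F
  haveI : IsScalarTower A₁ F L := inferInstance
  haveI : IsScalarTower A A₁ L := IsScalarTower.of_algebraMap_eq fun a => by
    rw [IsScalarTower.algebraMap_apply A F L, IsScalarTower.algebraMap_apply A₁ F L]
    rfl
  haveI : IsIntegrallyClosed A₁ := integralClosure.isIntegrallyClosedOfFiniteExtension K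
  haveI : IsFractionRing A₁ F := integralClosure.isFractionRing_of_finite_extension K F
  have hy₁ : pb.gen ^ m = algebraMap A₁ L (algebraMap A A₁ u) := by
    rw [hy, ← IsScalarTower.algebraMap_apply A A₁ L]
  have huv₁ : algebraMap A A₁ u * algebraMap A A₁ v = 1 := by
    rw [← map_mul, huv, map_one]
  have hmn₁ : (m : A₁) * algebraMap A A₁ n = 1 := by
    have := congrArg (algebraMap A A₁) hmn
    simpa using this
  obtain ⟨a, ha, hdisc⟩ := exists_isUnit_discr_powerBasis (A := A₁) (F := F) pb huv₁ hmn₁ hy₁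
  obtain ⟨a', haa'⟩ := ha.exists_right_inv
  refine ⟨pb.dim, pb.basis, fun i => isIntegral_powerBasis pb hm hy i,
    algebraMap A₁ F a', ?_, a'.2, ?_⟩
  · rw [hdisc]; exact a.2
  · rw [hdisc, ← map_mul, haa', map_one]

/-- **Kummer step, element form**: `L = F[y]`, `y ^ m = u`. -/
theorem etaleBasis_of_pow_eq {A : Type*} (K : Type*) {F L : Type*}
    [CommRing A] [IsDomain A] [IsIntegrallyClosed A]
    [Field K] [Algebra A K] [IsFractionRing A K]
    [Field F] [Algebra K F] [Algebra A F] [IsScalarTower A K F]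
    [FiniteDimensional K F] [Algebra.IsSeparable K F]
    [Field L] [Algebra F L] [Algebra A L] [IsScalarTower A F L]
    [FiniteDimensional F L] [Algebra.IsSeparable F L]
    (y : L) (hgen : Algebra.adjoin F {y} = ⊤) {m : ℕ} {u v : A} (huv : u * v = 1)
    {n : A} (hmn : (m : A) * n = 1) (hy : y ^ m = algebraMap A L u) :
    EtaleBasis A F L :=
  etaleBasis_of_kummer K
    (PowerBasis.ofAdjoinEqTop (Algebra.IsIntegral.isIntegral (R := F) y) hgen) huv hmn
    (by rw [PowerBasis.ofAdjoinEqTop_gen]; exact hy)

/-- **Kummer step with a twist**: `L = F[G]`, `G ^ m = c · h ^ m` with `c ∈ Aˣ`, `h ∈ Fˣ`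
(the local shape of a function whose divisor is divisible by `m`). -/
theorem etaleBasis_of_pow_eq_mul {A : Type*} (K : Type*) {F L : Type*}
    [CommRing A] [IsDomain A] [IsIntegrallyClosed A]
    [Field K] [Algebra A K] [IsFractionRing A K]
    [Field F] [Algebra K F] [Algebra A F] [IsScalarTower A K F]
    [FiniteDimensional K F] [Algebra.IsSeparable K F]
    [Field L] [Algebra F L] [Algebra A L] [IsScalarTower A F L]
    [FiniteDimensional F L] [Algebra.IsSeparable F L]
    (G : L) (hgen : Algebra.adjoin F {G} = ⊤) {m : ℕ} {u v : A} (huv : u * v = 1)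
    {n : A} (hmn : (m : A) * n = 1) (h : F) (hh : h ≠ 0)
    (hG : G ^ m = algebraMap A L u * algebraMap F L h ^ m) :
    EtaleBasis A F L := by
  have hh' : algebraMap F L h ≠ 0 := by simpa using hh
  refine etaleBasis_of_pow_eq K (G * (algebraMap F L h)⁻¹) ?_ huv hmn ?_
  · -- `F[G / h] = F[G]`
    rw [eq_top_iff, ← hgen]
    refine Algebra.adjoin_le ?_
    intro x hx
    rw [Set.mem_singleton_iff] at hx
    rw [hx]
    have hmem : G * (algebraMap F L h)⁻¹ ∈ Algebra.adjoin F {G * (algebraMap F L h)⁻¹} :=
      Algebra.subset_adjoin rfl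
    have h2 : G = algebraMap F L h * (G * (algebraMap F L h)⁻¹) := by
      field_simp
    have h3 : algebraMap F L h * (G * (algebraMap F L h)⁻¹) ∈
        Algebra.adjoin F {G * (algebraMap F L h)⁻¹} :=
      Subalgebra.mul_mem _ (Subalgebra.algebraMap_mem _ h) hmem
    rw [← h2] at h3
    exact h3
  · rw [mul_pow, hG, inv_pow]
    field_simp

/-- **Two Kummer steps** `F ⊆ F₁ = F[y₁] ⊆ L = F₁[y₂]`, `y₁ ^ m = u₁`, `y₂ ^ m = u₂`,
`u₁, u₂, m ∈ Aˣ`, over an integrally closed `A` with fraction field `F`:
`L / F` has an `A`-integral basis whose discriminant is a unit of `A`. -/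
theorem etaleBasis_of_kummer_two {A F F₁ L : Type*}
    [CommRing A] [IsDomain A] [IsIntegrallyClosed A]
    [Field F] [Algebra A F] [IsFractionRing A F]
    [Field F₁] [Algebra F F₁] [Algebra A F₁] [IsScalarTower A F F₁]
    [FiniteDimensional F F₁] [Algebra.IsSeparable F F₁]
    [Field L] [Algebra F₁ L] [Algebra F L] [Algebra A L] [IsScalarTower A F₁ L]
    [IsScalarTower F F₁ L]
    [FiniteDimensional F₁ L] [Algebra.IsSeparable F₁ L]
    (h₁ : EtaleBasis A F F₁) (h₂ : EtaleBasis A F₁ L) :
    ∃ (n : ℕ) (b : Basis (Fin n) F L), (∀ i, IsIntegral A (b i)) ∧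
      ∃ a : A, IsUnit a ∧ Algebra.discr F b = algebraMap A F a :=
  (h₁.trans h₂).exists_isUnit

end kummer

end Fermat.Agent.A2.H432
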