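import Mathlib.RingTheory.Discriminant
import Mathlib.RingTheory.Norm.Transitivity
import Mathlib.FieldTheory.Minpoly.IsIntegrallyClosed
import Mathlib.RingTheory.Adjoin.PowerBasis
import Mathlib.RingTheory.Localization.Integral
import Mathlib.RingTheory.IntegralClosure.IntegrallyClosed
import Mathlib.RingTheory.DedekindDomain.IntegralClosure

/-!
# A2 / COUNT (A3): a Kummer extension by a unit has unit discriminant — helper432.  Mathlib only.

`A` integrally closed domain, `F = Frac A`, `L / F` finite separable, `y ∈ L` a primitive element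
with `y ^ m = u`, `u ∈ Aˣ`, `m ∈ Aˣ`.  Then the power basis `1, y, …, y^(d-1)` consists of elements
integral over `A` and its discriminant is (the image of) a unit of `A`:
the cover is étale over `A` ("Kummer ⇒ EtaleAt").

* `exists_inverse_aeval_derivative` : `f'(y)` is a unit of the integral closure, `f = minpoly A y`.
* `exists_isUnit_norm_eq`           : the norm of a unit of the integral closure is a unit of `A`.
* `exists_isUnit_discr_powerBasis`  : `discr F pb.basis = algebraMap A F a`, `a ∈ Aˣ`.
* `isIntegral_powerBasis`           : the basis elements are integral over `A`.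
-/

set_option autoImplicit false

namespace Fermat.Agent.A2.H432

open Polynomial

section NoFractionField

variable {A L : Type*} [CommRing A] [IsDomain A] [IsIntegrallyClosed A]
  [Field L] [Algebra A L] [Module.IsTorsionFree A L]

omit [IsDomain A] [IsIntegrallyClosed A] [Module.IsTorsionFree A L] in
/-- an element with a unit power is integral. -/
theorem isIntegral_of_pow_eq {y : L} {m : ℕ} (hm : m ≠ 0) {u : A}
    (hy : y ^ m = algebraMap A L u) : IsIntegral A y := by
  refine ⟨X ^ m - C u, monic_X_pow_sub_C u hm, ?_⟩
  simp [hy]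

/-- `f'(y) · h(y) = m · y ^ (m - 1)` for the cofactor `h` of `f = minpoly A y` in `X ^ m - u`. -/
theorem exists_aeval_derivative_mul_eq {y : L} {m : ℕ} (hm : m ≠ 0) {u : A}
    (hy : y ^ m = algebraMap A L u) :
    ∃ h : A[X], aeval y (derivative (minpoly A y)) * aeval y h = (m : L) * y ^ (m - 1) := by
  have hint : IsIntegral A y := isIntegral_of_pow_eq hm hy
  have hroot : aeval y (X ^ m - C u : A[X]) = 0 := by simp [hy]
  obtain ⟨h, hh⟩ := minpoly.isIntegrallyClosed_dvd hint hroot
  refine ⟨h, ?_⟩
  have hder := congrArg derivative hh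
  rw [derivative_mul] at hder
  have h2 := congrArg (aeval y) hder
  simp only [map_add, map_mul, minpoly.aeval, zero_mul, add_zero, derivative_sub,
    derivative_X_pow, derivative_C, sub_zero, map_natCast, map_pow, aeval_X] at h2
  rw [← h2]

/-- **Key step**: `f'(y)` has an integral inverse. -/
theorem exists_inverse_aeval_derivative {y : L} {m : ℕ} {u v : A} (huv : u * v = 1)
    {n : A} (hmn : (m : A) * n = 1) (hy : y ^ m = algebraMap A L u) :
    ∃ z : L, IsIntegral A z ∧ aeval y (derivative (minpoly A y)) * z = 1 := by
  have hm : m ≠ 0 := by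
    rintro rfl
    simp at hmn
  have hint : IsIntegral A y := isIntegral_of_pow_eq hm hy
  obtain ⟨h, hh⟩ := exists_aeval_derivative_mul_eq hm hy
  -- inverse of `m * y ^ (m - 1)` is `n * v * y`
  refine ⟨aeval y h * (algebraMap A L n * algebraMap A L v * y), ?_, ?_⟩
  · have h1 : IsIntegral A (aeval y h) :=
      adjoin_le_integralClosure hint (aeval_mem_adjoin_singleton A y)
    exact h1.mul ((isIntegral_algebraMap.mul isIntegral_algebraMap).mul hint)
  · rw [← mul_assoc, hh]
    have h1 : y ^ (m - 1) * y = y ^ m := by
      rw [← pow_succ, Nat.sub_add_cancel (Nat.one_le_iff_ne_zero.2 hm)]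
    have h2 : (m : L) * algebraMap A L n = 1 := by
      have := congrArg (algebraMap A L) hmn
      simpa using this
    have h3 : algebraMap A L u * algebraMap A L v = 1 := by
      rw [← map_mul, huv, map_one]
    calc (m : L) * y ^ (m - 1) * (algebraMap A L n * algebraMap A L v * y)
        = ((m : L) * algebraMap A L n) * (y ^ (m - 1) * y) * algebraMap A L v := by ring
      _ = 1 := by rw [h2, h1, hy, one_mul, h3]

end NoFractionField

section FractionField

variable {A F L : Type*} [CommRing A] [IsDomain A] [IsIntegrallyClosed A]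
  [Field F] [Algebra A F] [IsFractionRing A F]
  [Field L] [Algebra F L] [Algebra A L] [IsScalarTower A F L]

omit [IsDomain A] in
/-- The norm of a unit of the integral closure is (the image of) a unit of `A`. -/
theorem exists_isUnit_norm_eq [FiniteDimensional F L] {x x' : L}
    (hx : IsIntegral A x) (hx' : IsIntegral A x') (h : x * x' = 1) :
    ∃ a : A, IsUnit a ∧ Algebra.norm F x = algebraMap A F a := by
  obtain ⟨a, ha⟩ := IsIntegrallyClosed.isIntegral_iff.1 (Algebra.isIntegral_norm F hx)
  obtain ⟨b, hb⟩ := IsIntegrallyClosed.isIntegral_iff.1 (Algebra.isIntegral_norm F hx')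
  refine ⟨a, IsUnit.of_mul_eq_one b ?_, ha.symm⟩
  apply IsFractionRing.injective A F
  rw [map_mul, ha, hb, ← map_mul, h, map_one, map_one]

/-- **Kummer ⇒ étale.**  The discriminant of the power basis of a primitive element `y` with
`y ^ m = u`, `u` and `m` units of `A`, is a unit of `A`. -/
theorem exists_isUnit_discr_powerBasis [FiniteDimensional F L] [Algebra.IsSeparable F L]
    (pb : PowerBasis F L) {m : ℕ} {u v : A} (huv : u * v = 1)
    {n : A} (hmn : (m : A) * n = 1) (hy : pb.gen ^ m = algebraMap A L u) :
    ∃ a : A, IsUnit a ∧ Algebra.discr F pb.basis = algebraMap A F a := by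
  have : Module.IsTorsionFree A L := .trans_faithfulSMul A F L
  have hm : m ≠ 0 := by
    rintro rfl
    simp at hmn
  have hint : IsIntegral A pb.gen := isIntegral_of_pow_eq hm hy
  obtain ⟨z, hz, hfz⟩ := exists_inverse_aeval_derivative huv hmn hy
  have hf : IsIntegral A (aeval pb.gen (derivative (minpoly A pb.gen))) :=
    adjoin_le_integralClosure hint (aeval_mem_adjoin_singleton A pb.gen)
  obtain ⟨a, ha, hNa⟩ := exists_isUnit_norm_eq (F := F) hf hz hfz
  have hmin : minpoly F pb.gen = (minpoly A pb.gen).map (algebraMap A F) :=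
    minpoly.isIntegrallyClosed_eq_field_fractions' F hint
  have hder : aeval pb.gen (derivative (minpoly F pb.gen))
      = aeval pb.gen (derivative (minpoly A pb.gen)) := by
    rw [hmin, derivative_map, aeval_map_algebraMap]
  refine ⟨(-1) ^ (Module.finrank F L * (Module.finrank F L - 1) / 2) * a, ?_, ?_⟩
  · exact ((isUnit_one.neg).pow _).mul ha
  · rw [Algebra.discr_powerBasis_eq_norm, hder, hNa]
    simp

omit [IsDomain A] [IsIntegrallyClosed A] [IsFractionRing A F] [Algebra A F]
  [IsScalarTower A F L] in
/-- the elements of the Kummer power basis are integral over `A`. -/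
theorem isIntegral_powerBasis (pb : PowerBasis F L) {m : ℕ} (hm : m ≠ 0) {u : A}
    (hy : pb.gen ^ m = algebraMap A L u) (i : Fin pb.dim) : IsIntegral A (pb.basis i) := by
  rw [pb.basis_eq_pow]
  exact (isIntegral_of_pow_eq hm hy).pow _

end FractionField

end Fermat.Agent.A2.H432
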