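import Mathlib

/-!
# A2 / MODEL (transversality), abstract part — helper432.  Mathlib only.

`k` a field, `T` a commutative `k`-algebra generated (as an algebra) by a set `S` of elements
each of which is killed by `∏ a ∈ Λ, (X - a)` for a finite set `Λ ⊆ k` (a split separable
polynomial, e.g. `X ^ (q ^ 2) - X` over a field containing `𝔽_{q²}`).  Then

* `locallyConst`        : every `x : T` is constant near every prime: `t * (x - c) = 0`, `t ∉ 𝔫`;
* `isReduced_of_adjoin` : `T` is reduced;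
* `residue_surjective`  : `k → T ⧸ 𝔫` is onto for every prime `𝔫` (all points are `k`-rational);
* `isMaximal_of_isPrime`: every prime of `T` is maximal;
* `exists_annihilator`  : `x ∈ 𝔫` ⟹ `t * x = 0` for some `t ∉ 𝔫` (the local ring at `𝔫` is a field).

Ideal form (`T = R ⧸ I`), used for the crossing locus `B / (𝔭_∞ + 𝔭_0)` of the special fibre of
the model of `X₀(qM)`: if `I` contains `h ^ (q ^ 2) - h` for all `h` in a generating set of the
`k`-algebra `R` then `I` is radical (`radical_eq_of_adjoin`), every prime over `I` is maximal and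
`k`-rational, and `I` generates the maximal ideal locally at every such prime
(`exists_mul_mem_of_mem_prime`): the two components cross TRANSVERSALLY.
-/

set_option autoImplicit false

namespace Fermat.Agent.A2.H432

open Polynomial

section Abstract

variable {k : Type*} [Field k] {T : Type*} [CommRing T] [Algebra k T]

/-- `x` is constant near the prime `𝔫`: some `t ∉ 𝔫` kills `x - c` for a constant `c`. -/
def LocConstAt (k : Type*) [Field k] {T : Type*} [CommRing T] [Algebra k T]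
    (𝔫 : Ideal T) (x : T) : Prop :=
  ∃ t : T, t ∉ 𝔫 ∧ ∃ c : k, t * (x - algebraMap k T c) = 0

theorem LocConstAt.const (𝔫 : Ideal T) (h𝔫 : 𝔫 ≠ ⊤) (c : k) :
    LocConstAt k 𝔫 (algebraMap k T c) :=
  ⟨1, (Ideal.ne_top_iff_one 𝔫).1 h𝔫, c, by simp⟩

theorem LocConstAt.add {𝔫 : Ideal T} [𝔫.IsPrime] {x y : T}
    (hx : LocConstAt k 𝔫 x) (hy : LocConstAt k 𝔫 y) : LocConstAt k 𝔫 (x + y) := by
  obtain ⟨t, ht, c, hc⟩ := hx
  obtain ⟨u, hu, d, hd⟩ := hy
  refine ⟨t * u, fun h => ?_, c + d, ?_⟩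
  · rcases Ideal.IsPrime.mem_or_mem ‹𝔫.IsPrime› h with h | h
    · exact ht h
    · exact hu h
  · rw [map_add]
    linear_combination u * hc + t * hd

theorem LocConstAt.mul {𝔫 : Ideal T} [𝔫.IsPrime] {x y : T}
    (hx : LocConstAt k 𝔫 x) (hy : LocConstAt k 𝔫 y) : LocConstAt k 𝔫 (x * y) := by
  obtain ⟨t, ht, c, hc⟩ := hx
  obtain ⟨u, hu, d, hd⟩ := hy
  refine ⟨t * u, fun h => ?_, c * d, ?_⟩
  · rcases Ideal.IsPrime.mem_or_mem ‹𝔫.IsPrime› h with h | h
    · exact ht h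
    · exact hu h
  · rw [map_mul]
    linear_combination (u * y) * hc + (t * algebraMap k T c) * hd

/-- An element killed by `∏ a ∈ Λ, (X - a)` is constant near every prime. -/
theorem locConstAt_of_prod_eq_zero (Λ : Finset k) (𝔫 : Ideal T) [𝔫.IsPrime] (s : T)
    (hs : ∏ a ∈ Λ, (s - algebraMap k T a) = 0) : LocConstAt k 𝔫 s := by
  classical
  have hmem : ∏ a ∈ Λ, (s - algebraMap k T a) ∈ 𝔫 := by rw [hs]; exact 𝔫.zero_mem
  obtain ⟨a₀, ha₀, ha₀𝔫⟩ := Ideal.IsPrime.prod_mem_iff.1 hmem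
  refine ⟨∏ a ∈ Λ.erase a₀, (s - algebraMap k T a), fun h => ?_, a₀, ?_⟩
  · obtain ⟨a, ha, ha𝔫⟩ := Ideal.IsPrime.prod_mem_iff.1 h
    have hne : a ≠ a₀ := Finset.ne_of_mem_erase ha
    have hdiff : algebraMap k T (a - a₀) ∈ 𝔫 := by
      have : algebraMap k T (a - a₀) = (s - algebraMap k T a₀) - (s - algebraMap k T a) := by
        rw [map_sub]; ring
      rw [this]
      exact 𝔫.sub_mem ha₀𝔫 ha𝔫
    have hunit : IsUnit (algebraMap k T (a - a₀)) :=
      (IsUnit.mk0 _ (sub_ne_zero.2 hne)).map (algebraMap k T)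
    exact (Ideal.IsPrime.ne_top ‹𝔫.IsPrime›) (Ideal.eq_top_of_isUnit_mem _ hdiff hunit)
  · rw [mul_comm]
    exact (Finset.mul_prod_erase Λ (fun a => s - algebraMap k T a) ha₀).trans hs

variable (k) in
/-- **Local constancy.**  If `T` is generated as a `k`-algebra by elements killed by the split
separable polynomial `∏ a ∈ Λ, (X - a)`, every element of `T` is constant near every prime. -/
theorem locallyConst (S : Set T) (hS : Algebra.adjoin k S = ⊤) (Λ : Finset k)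
    (hΛ : ∀ s ∈ S, ∏ a ∈ Λ, (s - algebraMap k T a) = 0)
    (𝔫 : Ideal T) [𝔫.IsPrime] (x : T) : LocConstAt k 𝔫 x := by
  have hx : x ∈ Algebra.adjoin k S := by rw [hS]; trivial
  induction hx using Algebra.adjoin_induction with
  | mem s hs => exact locConstAt_of_prod_eq_zero Λ 𝔫 s (hΛ s hs)
  | algebraMap c => exact LocConstAt.const 𝔫 (Ideal.IsPrime.ne_top ‹𝔫.IsPrime›) c
  | add x y _ _ hx hy => exact hx.add hy
  | mul x y _ _ hx hy => exact hx.mul hy

/-- local constancy implies: every element is congruent to a constant modulo `𝔫`. -/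
theorem LocConstAt.exists_sub_mem {𝔫 : Ideal T} [𝔫.IsPrime] {x : T} (hx : LocConstAt k 𝔫 x) :
    ∃ c : k, x - algebraMap k T c ∈ 𝔫 := by
  obtain ⟨t, ht, c, hc⟩ := hx
  refine ⟨c, ?_⟩
  have h0 : t * (x - algebraMap k T c) ∈ 𝔫 := by rw [hc]; exact 𝔫.zero_mem
  exact (Ideal.IsPrime.mem_or_mem ‹𝔫.IsPrime› h0).resolve_left ht

/-- local constancy implies: an element of `𝔫` is killed by some `t ∉ 𝔫`. -/
theorem LocConstAt.exists_annihilator {𝔫 : Ideal T} [𝔫.IsPrime] {x : T}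
    (hx : LocConstAt k 𝔫 x) (hx𝔫 : x ∈ 𝔫) : ∃ t : T, t ∉ 𝔫 ∧ t * x = 0 := by
  obtain ⟨t, ht, c, hc⟩ := hx
  have h0 : t * (x - algebraMap k T c) ∈ 𝔫 := by rw [hc]; exact 𝔫.zero_mem
  have h1 : x - algebraMap k T c ∈ 𝔫 := (Ideal.IsPrime.mem_or_mem ‹𝔫.IsPrime› h0).resolve_left ht
  have h2 : algebraMap k T c ∈ 𝔫 := by
    have : algebraMap k T c = x - (x - algebraMap k T c) := by ring
    rw [this]; exact 𝔫.sub_mem hx𝔫 h1
  have hc0 : c = 0 := by
    by_contra hne
    exact (Ideal.IsPrime.ne_top ‹𝔫.IsPrime›)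
      (Ideal.eq_top_of_isUnit_mem _ h2 ((IsUnit.mk0 _ hne).map (algebraMap k T)))
  refine ⟨t, ht, ?_⟩
  rw [hc0, map_zero, sub_zero] at hc
  exact hc

section consequences

variable (S : Set T) (hS : Algebra.adjoin k S = ⊤) (Λ : Finset k)
  (hΛ : ∀ s ∈ S, ∏ a ∈ Λ, (s - algebraMap k T a) = 0)

include hS hΛ

/-- **the local ring at every prime is a field** (elementwise form). -/
theorem exists_annihilator (𝔫 : Ideal T) [𝔫.IsPrime] {x : T} (hx : x ∈ 𝔫) :
    ∃ t : T, t ∉ 𝔫 ∧ t * x = 0 :=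
  (locallyConst k S hS Λ hΛ 𝔫 x).exists_annihilator hx

/-- **all points are rational**: `k → T ⧸ 𝔫` is onto for every prime `𝔫`. -/
theorem residue_surjective (𝔫 : Ideal T) [𝔫.IsPrime] :
    Function.Surjective (algebraMap k (T ⧸ 𝔫)) := by
  intro y
  obtain ⟨x, rfl⟩ := Ideal.Quotient.mk_surjective y
  obtain ⟨c, hc⟩ := (locallyConst k S hS Λ hΛ 𝔫 x).exists_sub_mem
  refine ⟨c, ?_⟩
  rw [IsScalarTower.algebraMap_apply k T (T ⧸ 𝔫), Ideal.Quotient.algebraMap_eq]
  exact ((Ideal.Quotient.mk_eq_mk_iff_sub_mem _ _).2 hc).symm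

/-- every prime is maximal. -/
theorem isMaximal_of_isPrime (𝔫 : Ideal T) [𝔫.IsPrime] : 𝔫.IsMaximal := by
  refine Ideal.isMaximal_iff.2 ⟨(Ideal.ne_top_iff_one 𝔫).1 (Ideal.IsPrime.ne_top ‹𝔫.IsPrime›), ?_⟩
  intro J x h𝔫J hx𝔫 hxJ
  obtain ⟨c, hc⟩ := (locallyConst k S hS Λ hΛ 𝔫 x).exists_sub_mem
  have hcJ : algebraMap k T c ∈ J := by
    have : algebraMap k T c = x - (x - algebraMap k T c) := by ring
    rw [this]; exact J.sub_mem hxJ (h𝔫J hc)
  have hc0 : c ≠ 0 := by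
    rintro rfl
    rw [map_zero, sub_zero] at hc
    exact hx𝔫 hc
  have hJ : J = ⊤ := Ideal.eq_top_of_isUnit_mem _ hcJ ((IsUnit.mk0 _ hc0).map (algebraMap k T))
  rw [hJ]; trivial

/-- **reducedness.** -/
theorem isReduced_of_adjoin : IsReduced T := by
  refine ⟨fun x hx => ?_⟩
  by_contra hx0
  -- the annihilator of `x` is a proper ideal, contained in a maximal ideal
  have hann : (Ideal.span {x}).annihilator ≠ ⊤ := by
    intro h
    have h1 : (1 : T) ∈ (Ideal.span {x}).annihilator := by rw [h]; trivial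
    rw [Submodule.mem_annihilator_span_singleton] at h1
    exact hx0 (by simpa using h1)
  obtain ⟨𝔫, h𝔫, hle⟩ := Ideal.exists_le_maximal _ hann
  have : 𝔫.IsPrime := h𝔫.isPrime
  have hx𝔫 : x ∈ 𝔫 := by
    obtain ⟨n, hn⟩ := hx
    exact Ideal.IsPrime.mem_of_pow_mem ‹𝔫.IsPrime› n (by rw [hn]; exact 𝔫.zero_mem)
  obtain ⟨t, ht, htx⟩ := exists_annihilator S hS Λ hΛ 𝔫 hx𝔫
  apply ht
  apply hle
  rw [Submodule.mem_annihilator_span_singleton]
  simpa [smul_eq_mul] using htx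

/-- the residue field at every prime is `k` (linear equivalence). -/
noncomputable def residueEquiv (𝔫 : Ideal T) [𝔫.IsPrime] : k ≃ₗ[k] (T ⧸ 𝔫) :=
  LinearEquiv.ofBijective (Algebra.linearMap k (T ⧸ 𝔫))
    ⟨(algebraMap k (T ⧸ 𝔫)).injective, residue_surjective S hS Λ hΛ 𝔫⟩

/-- **Counting points.**  If `T` is moreover finite-dimensional, `dim_k T` is the number of
maximal ideals (`T ≅ k × ⋯ × k`). -/
theorem finrank_eq_card_maximalSpectrum [Module.Finite k T] :
    Module.finrank k T = Nat.card (MaximalSpectrum T) := by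
  classical
  have : IsArtinianRing T := IsArtinianRing.of_finite k T
  have : IsReduced T := isReduced_of_adjoin S hS Λ hΛ
  let _ : Fintype (MaximalSpectrum T) := Fintype.ofFinite _
  have e : T ≃ₗ[k] (∀ I : MaximalSpectrum T, T ⧸ I.asIdeal) :=
    ((IsArtinianRing.equivPi T).restrictScalars k).toLinearEquiv
  have h1 : ∀ I : MaximalSpectrum T, Module.finrank k (T ⧸ I.asIdeal) = 1 := by
    intro I
    have : I.asIdeal.IsPrime := I.isMaximal.isPrime
    rw [← (residueEquiv S hS Λ hΛ I.asIdeal).finrank_eq, Module.finrank_self]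
  rw [e.finrank_eq, Module.finrank_pi_fintype]
  simp [h1, Nat.card_eq_fintype_card]

end consequences

end Abstract

section IdealForm

variable {k : Type*} [Field k] {R : Type*} [CommRing R] [Algebra k R]

/-- the hypotheses of the abstract part hold for `R ⧸ I` and the image of `S`. -/
theorem adjoin_image_mk_eq_top (I : Ideal R) (S : Set R) (hS : Algebra.adjoin k S = ⊤) :
    Algebra.adjoin k ((Ideal.Quotient.mkₐ k I) '' S) = ⊤ := by
  rw [← AlgHom.map_adjoin, hS, Algebra.map_top, AlgHom.range_eq_top]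
  exact Ideal.Quotient.mkₐ_surjective k I

theorem prod_image_mk_eq_zero (I : Ideal R) (S : Set R) (Λ : Finset k)
    (hΛ : ∀ s ∈ S, ∏ a ∈ Λ, (s - algebraMap k R a) ∈ I) :
    ∀ s ∈ (Ideal.Quotient.mkₐ k I) '' S, ∏ a ∈ Λ, (s - algebraMap k (R ⧸ I) a) = 0 := by
  rintro _ ⟨s, hs, rfl⟩
  have h := (Ideal.Quotient.eq_zero_iff_mem (I := I)).2 (hΛ s hs)
  rw [← h, map_prod]
  refine Finset.prod_congr rfl fun a _ => ?_
  rw [map_sub]
  rfl

variable (I : Ideal R) (S : Set R) (hS : Algebra.adjoin k S = ⊤) (Λ : Finset k)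
  (hΛ : ∀ s ∈ S, ∏ a ∈ Λ, (s - algebraMap k R a) ∈ I)

include hS hΛ

/-- **Transversality, local form.**  If `I` contains `∏ a ∈ Λ, (s - a)` for all `s` in a set of
generators of the `k`-algebra `R`, then at every prime `𝔫 ⊇ I` the ideal `I` generates `𝔫` locally:
every `x ∈ 𝔫` is multiplied into `I` by some `t ∉ 𝔫`. -/
theorem exists_mul_mem_of_mem_prime (𝔫 : Ideal R) [𝔫.IsPrime] (hI : I ≤ 𝔫) {x : R} (hx : x ∈ 𝔫) :
    ∃ t : R, t ∉ 𝔫 ∧ t * x ∈ I := by
  have h𝔫' : (𝔫.map (Ideal.Quotient.mk I)).IsPrime :=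
    Ideal.map_isPrime_of_surjective Ideal.Quotient.mk_surjective (by rwa [Ideal.mk_ker])
  have hx' : Ideal.Quotient.mk I x ∈ 𝔫.map (Ideal.Quotient.mk I) := Ideal.mem_map_of_mem _ hx
  obtain ⟨t', ht', htx'⟩ := exists_annihilator (k := k) _ (adjoin_image_mk_eq_top I S hS) Λ
    (prod_image_mk_eq_zero I S Λ hΛ) (𝔫.map (Ideal.Quotient.mk I)) hx'
  obtain ⟨t, rfl⟩ := Ideal.Quotient.mk_surjective t'
  refine ⟨t, fun h => ht' (Ideal.mem_map_of_mem _ h), ?_⟩
  rw [← map_mul] at htx'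
  exact (Ideal.Quotient.eq_zero_iff_mem (I := I)).1 htx'

/-- **Transversality, global form**: `I` is a radical ideal (`R ⧸ I` is reduced). -/
theorem isRadical_of_adjoin : I.IsRadical := by
  have hred : IsReduced (R ⧸ I) := isReduced_of_adjoin (k := k) _
    (adjoin_image_mk_eq_top I S hS) Λ (prod_image_mk_eq_zero I S Λ hΛ)
  exact (Ideal.isRadical_iff_quotient_reduced I).2 hred

/-- every prime over `I` is maximal. -/
theorem isMaximal_of_isPrime_of_le (𝔫 : Ideal R) [𝔫.IsPrime] (hI : I ≤ 𝔫) : 𝔫.IsMaximal := by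
  have h𝔫' : (𝔫.map (Ideal.Quotient.mk I)).IsPrime :=
    Ideal.map_isPrime_of_surjective Ideal.Quotient.mk_surjective (by rwa [Ideal.mk_ker])
  have hmax : (𝔫.map (Ideal.Quotient.mk I)).IsMaximal :=
    isMaximal_of_isPrime (k := k) _ (adjoin_image_mk_eq_top I S hS) Λ
      (prod_image_mk_eq_zero I S Λ hΛ) _
  have hcomap : (𝔫.map (Ideal.Quotient.mk I)).comap (Ideal.Quotient.mk I) = 𝔫 := by
    rw [Ideal.comap_map_of_surjective _ Ideal.Quotient.mk_surjective, ← RingHom.ker_eq_comap_bot,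
      Ideal.mk_ker]
    exact sup_eq_left.2 hI
  rw [← hcomap]
  exact Ideal.comap_isMaximal_of_surjective _ Ideal.Quotient.mk_surjective

/-- every prime over `I` is `k`-rational: each `x : R` is congruent to a constant. -/
theorem exists_sub_algebraMap_mem (𝔫 : Ideal R) [𝔫.IsPrime] (hI : I ≤ 𝔫) (x : R) :
    ∃ c : k, x - algebraMap k R c ∈ 𝔫 := by
  have h𝔫' : (𝔫.map (Ideal.Quotient.mk I)).IsPrime :=
    Ideal.map_isPrime_of_surjective Ideal.Quotient.mk_surjective (by rwa [Ideal.mk_ker])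
  obtain ⟨c, hc⟩ := (locallyConst k _ (adjoin_image_mk_eq_top I S hS) Λ
    (prod_image_mk_eq_zero I S Λ hΛ) (𝔫.map (Ideal.Quotient.mk I))
    (Ideal.Quotient.mk I x)).exists_sub_mem
  refine ⟨c, ?_⟩
  have hcomap : (𝔫.map (Ideal.Quotient.mk I)).comap (Ideal.Quotient.mk I) = 𝔫 := by
    rw [Ideal.comap_map_of_surjective _ Ideal.Quotient.mk_surjective, ← RingHom.ker_eq_comap_bot,
      Ideal.mk_ker]
    exact sup_eq_left.2 hI
  rw [← hcomap, Ideal.mem_comap, map_sub]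
  exact hc

end IdealForm

section Frobenius

variable {k : Type*} [Field k]

/-- A split separable monic polynomial is `∏ a ∈ Λ, (X - C a)` for a finite set `Λ`. -/
theorem exists_finset_eq_prod {P : k[X]} (hmonic : P.Monic) (hsplit : P.Splits)
    (hsep : P.Separable) : ∃ Λ : Finset k, P = ∏ a ∈ Λ, (X - C a) := by
  classical
  refine ⟨P.roots.toFinset, ?_⟩
  have h1 := hsplit.eq_prod_roots_of_monic hmonic
  have h2 : P.roots.toFinset.val = P.roots := by
    rw [Multiset.toFinset_val]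
    exact Multiset.dedup_eq_self.2 (nodup_roots hsep)
  conv_lhs => rw [h1]
  rw [Finset.prod_eq_multiset_prod, h2]

/-- `X ^ n - X` with `char k ∣ n`, split over `k`, is `∏ a ∈ Λ, (X - C a)`. -/
theorem exists_finset_X_pow_sub_X (q n : ℕ) [CharP k q] (hq : q ∣ n) (hn : 1 < n)
    (hsplit : (X ^ n - X : k[X]).Splits) :
    ∃ Λ : Finset k, (X ^ n - X : k[X]) = ∏ a ∈ Λ, (X - C a) :=
  exists_finset_eq_prod (monic_X_pow_sub (by simpa using hn)) hsplit
    (galois_poly_separable q n hq)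

variable {R : Type*} [CommRing R] [Algebra k R]

theorem prod_sub_algebraMap_eq_aeval (Λ : Finset k) (s : R) :
    ∏ a ∈ Λ, (s - algebraMap k R a) = aeval s (∏ a ∈ Λ, (X - C a) : k[X]) := by
  rw [map_prod]
  refine Finset.prod_congr rfl fun a _ => ?_
  rw [map_sub, aeval_X, aeval_C]

/-- **Frobenius form.**  `k ⊇ 𝔽_{n}` of characteristic `q ∣ n` (`X ^ n - X` splits), `R` generated
as a `k`-algebra by `S`, and `h ^ n - h ∈ I` for all `h ∈ S`.  Then `I` is radical, and at every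
prime `𝔫 ⊇ I`: `𝔫` is maximal, `k`-rational, and locally generated by `I`. -/
theorem frobenius_transversal (q n : ℕ) [CharP k q] (hq : q ∣ n) (hn : 1 < n)
    (hsplit : (X ^ n - X : k[X]).Splits)
    (I : Ideal R) (S : Set R) (hS : Algebra.adjoin k S = ⊤)
    (hI : ∀ h ∈ S, h ^ n - h ∈ I) :
    I.IsRadical ∧ ∀ 𝔫 : Ideal R, 𝔫.IsPrime → I ≤ 𝔫 →
      𝔫.IsMaximal ∧ (∀ x : R, ∃ c : k, x - algebraMap k R c ∈ 𝔫) ∧
      ∀ x ∈ 𝔫, ∃ t : R, t ∉ 𝔫 ∧ t * x ∈ I := by
  obtain ⟨Λ, hΛ⟩ := exists_finset_X_pow_sub_X (k := k) q n hq hn hsplit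
  have hΛ' : ∀ s ∈ S, ∏ a ∈ Λ, (s - algebraMap k R a) ∈ I := by
    intro s hs
    rw [prod_sub_algebraMap_eq_aeval, ← hΛ]
    simpa using hI s hs
  refine ⟨isRadical_of_adjoin I S hS Λ hΛ', fun 𝔫 h𝔫 hle => ?_⟩
  have := h𝔫
  exact ⟨isMaximal_of_isPrime_of_le I S hS Λ hΛ' 𝔫 hle,
    exists_sub_algebraMap_mem I S hS Λ hΛ' 𝔫 hle,
    fun x hx => exists_mul_mem_of_mem_prime I S hS Λ hΛ' 𝔫 hle hx⟩

end Frobenius

end Fermat.Agent.A2.H432
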